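/-
Programme Q (S58), brick (R1) (helper90): the degree function on the odd points of a Weierstrass
curve over its own function field.

`k` a field, `W` a Weierstrass curve over `k` with `Δ ≠ 0`, `K = W.FunctionField`.  For a point
`R ∈ W(K)` a pair `U V : k[X]` is an `x`-RATIO of `R` if `U, V` are coprime and
`x(R) = U / V` (projectively, so that `R = 0` has the ratio `(1, 0)`).  Odd points
(`IotaDescent23.oddPoints`) have `x`-ratios; `deg R := max (deg U) (deg V)`.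

* `deg_eq_of_isXRatio` : well defined;
* `deg_zero`, `deg_neg`, `deg_genericPoint : deg P₀ = 1`;
* `deg_add_add_deg_sub` : the exact parallelogram law on the odd points;
* `deg_map_pow` : `deg (Φ R) = q * deg R` for a `k`-endomorphism `Φ` of `K` of the form `z ↦ z ^ q`.
-/
import Mathlib
import Fermat.Agent.ES.Q58.IotaDescent23
import Fermat.Agent.ES.Q58.SubstEmb17
import Fermat.Agent.ES.Q58.PLCurve2
import Fermat.Agent.ES.Q58.PLPoly2

set_option autoImplicit false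
set_option linter.unusedSectionVars false

open Polynomial

namespace Fermat.Agent.Q58R.Deg

open WeierstrassCurve WeierstrassCurve.Affine
open Fermat.Agent.ES.Q58.IotaDescent23 Fermat.Agent.ES.Q58.SubstEmb17
open Fermat.Agent.ES.Q58.PLForms2 Fermat.Agent.ES.Q58.PLPoly2 Fermat.Agent.ES.Q58.PLCurve2

variable {k : Type*} [Field k] (W : Affine k) [DecidableEq W.FunctionField]

/-- the canonical map `k[X] → K`. -/
noncomputable abbrev cK : k[X] →+* W.FunctionField := algebraMap k[X] W.FunctionField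

theorem cK_injective : Function.Injective (cK W) := algebraMap_functionField_injective W

/-- `(U, V)` is an `x`-ratio of `R`. -/
def IsXRatio (R : (W⁄W.FunctionField).Point) (U V : k[X]) : Prop :=
  IsCoprime U V ∧ R.xRep 0 * cK W V = R.xRep 1 * cK W U

variable {W}

theorem isXRatio_zero : IsXRatio W 0 1 0 := by
  refine ⟨isCoprime_one_left, ?_⟩
  simp

theorem isXRatio_some_iff {x y : W.FunctionField} (h : (W⁄W.FunctionField).Nonsingular x y)
    {U V : k[X]} : IsXRatio W (Point.some x y h) U V ↔ IsCoprime U V ∧ x * cK W V = cK W U := by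
  unfold IsXRatio
  simp

theorem IsXRatio.neg {R : (W⁄W.FunctionField).Point} {U V : k[X]} (h : IsXRatio W R U V) :
    IsXRatio W (-R) U V := by
  unfold IsXRatio at h ⊢
  rwa [Point.xRep_neg]

/-- the denominator of an `x`-ratio of an affine point does not vanish. -/
theorem IsXRatio.ne_zero_of_some {x y : W.FunctionField}
    {h : (W⁄W.FunctionField).Nonsingular x y} {U V : k[X]}
    (hr : IsXRatio W (Point.some x y h) U V) : V ≠ 0 := by
  rintro rfl
  obtain ⟨hc, he⟩ := (isXRatio_some_iff h).mp hr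
  rw [map_zero, mul_zero] at he
  have hU : U = 0 := cK_injective W (by rw [← he, map_zero])
  rw [hU] at hc
  exact not_isCoprime_zero_zero hc

/-- two coprime pairs with the same cross ratio have the same height. -/
theorem ht_eq_of_cross {U V U' V' : k[X]} (h : IsCoprime U V) (h' : IsCoprime U' V')
    (hc : U * V' = U' * V) : ht U V = ht U' V' := by
  have h1 : U ∣ U' := by
    have : U ∣ U' * V := ⟨V', hc.symm⟩
    exact h.dvd_of_dvd_mul_right this
  have h2 : U' ∣ U := by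
    have : U' ∣ U * V' := ⟨V, hc⟩
    exact h'.dvd_of_dvd_mul_right this
  have h3 : V ∣ V' := by
    have : V ∣ U * V' := ⟨U', by rw [hc]; ring⟩
    exact h.symm.dvd_of_dvd_mul_left this
  have h4 : V' ∣ V := by
    have : V' ∣ U' * V := ⟨U, by rw [← hc]; ring⟩
    exact h'.symm.dvd_of_dvd_mul_left this
  unfold ht
  rw [natDegree_eq_of_degree_eq (degree_eq_degree_of_associated (associated_of_dvd_dvd h1 h2)),
    natDegree_eq_of_degree_eq (degree_eq_degree_of_associated (associated_of_dvd_dvd h3 h4))]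

theorem IsXRatio.ht_eq {R : (W⁄W.FunctionField).Point} {U V U' V' : k[X]}
    (h : IsXRatio W R U V) (h' : IsXRatio W R U' V') : ht U V = ht U' V' := by
  apply ht_eq_of_cross h.1 h'.1
  apply cK_injective W
  rw [map_mul, map_mul]
  rcases R with _ | ⟨x, y, hxy⟩
  · have e := h.2
    have e' := h'.2
    rw [← Point.zero_def] at e e'
    simp only [Point.xRep_zero, Matrix.cons_val_zero, Matrix.cons_val_one, one_mul, zero_mul] at e e'
    rw [e, e']
    ring
  · obtain ⟨-, e⟩ := (isXRatio_some_iff hxy).mp h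
    obtain ⟨-, e'⟩ := (isXRatio_some_iff hxy).mp h'
    rw [← e, ← e']
    ring

variable (W)

open Classical in
/-- **the degree of a point of `W(K)`** (`0` if it has no `x`-ratio). -/
noncomputable def deg (R : (W⁄W.FunctionField).Point) : ℕ :=
  if h : ∃ U V : k[X], IsXRatio W R U V then ht h.choose h.choose_spec.choose else 0

variable {W}

theorem deg_eq_of_isXRatio {R : (W⁄W.FunctionField).Point} {U V : k[X]} (h : IsXRatio W R U V) :
    deg W R = ht U V := by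
  have hex : ∃ U V : k[X], IsXRatio W R U V := ⟨U, V, h⟩
  unfold deg
  rw [dif_pos hex]
  exact hex.choose_spec.choose_spec.ht_eq h

theorem deg_zero : deg W (0 : (W⁄W.FunctionField).Point) = 0 := by
  rw [deg_eq_of_isXRatio isXRatio_zero]
  simp [ht]

theorem deg_neg (R : (W⁄W.FunctionField).Point) : deg W (-R) = deg W R := by
  by_cases h : ∃ U V : k[X], IsXRatio W R U V
  · obtain ⟨U, V, h⟩ := h
    rw [deg_eq_of_isXRatio h, deg_eq_of_isXRatio h.neg]
  · have h' : ¬ ∃ U V : k[X], IsXRatio W (-R) U V := by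
      rintro ⟨U, V, h'⟩
      exact h ⟨U, V, by simpa using h'.neg⟩
    unfold deg
    rw [dif_neg h, dif_neg h']

/-- every odd point has an `x`-ratio. -/
theorem exists_isXRatio (hΔ : W.Δ ≠ 0) {R : (W⁄W.FunctionField).Point} (hR : R ∈ oddPoints W) :
    ∃ U V : k[X], IsXRatio W R U V := by
  rcases R with _ | ⟨x, y, h⟩
  · exact ⟨1, 0, isXRatio_zero⟩
  · obtain ⟨U, V, hc, -, e⟩ := exists_coprime_x_of_mem_oddPoints W hΔ h hR
    exact ⟨U, V, (isXRatio_some_iff h).mpr ⟨hc, e⟩⟩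

theorem isXRatio_genericPoint (hΔ : W.Δ ≠ 0) : IsXRatio W (Fermat.Agent.ES.Q58.IotaDescent23.genericPoint W hΔ) X 1 := by
  unfold Fermat.Agent.ES.Q58.IotaDescent23.genericPoint
  rw [isXRatio_some_iff]
  refine ⟨isCoprime_one_right, ?_⟩
  rw [map_one, mul_one]
  rfl

theorem deg_genericPoint (hΔ : W.Δ ≠ 0) : deg W (Fermat.Agent.ES.Q58.IotaDescent23.genericPoint W hΔ) = 1 := by
  rw [deg_eq_of_isXRatio (isXRatio_genericPoint hΔ)]
  simp [ht]


/-! ### the parallelogram law -/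

/-- projective coordinates of a point with an `x`-ratio. -/
theorem IsXRatio.exists_scale {R : (W⁄W.FunctionField).Point} {U V : k[X]}
    (h : IsXRatio W R U V) :
    ∃ t : W.FunctionField, t ≠ 0 ∧ R.xRep 0 = t * cK W U ∧ R.xRep 1 = t * cK W V := by
  rcases R with _ | ⟨x, y, hxy⟩
  · have e := h.2
    rw [← Point.zero_def] at e ⊢
    simp only [Point.xRep_zero, Matrix.cons_val_zero, Matrix.cons_val_one, one_mul, zero_mul] at e ⊢
    have hV : V = 0 := cK_injective W (by rw [e, map_zero])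
    have hU : cK W U ≠ 0 := by
      intro h0
      have hU0 : U = 0 := cK_injective W (by rw [h0, map_zero])
      have hc := h.1
      rw [hU0, hV] at hc
      exact not_isCoprime_zero_zero hc
    refine ⟨(cK W U)⁻¹, inv_ne_zero hU, (inv_mul_cancel₀ hU).symm, ?_⟩
    rw [hV, map_zero, mul_zero]
  · obtain ⟨-, e⟩ := (isXRatio_some_iff hxy).mp h
    have hV : cK W V ≠ 0 := by
      intro h0
      exact h.ne_zero_of_some (cK_injective W (by rw [h0, map_zero]))
    refine ⟨(cK W V)⁻¹, inv_ne_zero hV, ?_, ?_⟩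
    · simp only [Point.xRep_some, Matrix.cons_val_zero]
      rw [← e]
      field_simp
    · simp only [Point.xRep_some, Matrix.cons_val_one]
      exact (inv_mul_cancel₀ hV).symm

theorem G0_scale {R : Type*} [CommRing R] (t₁ t₂ u₁ v₁ u₂ v₂ : R) :
    G0 (t₁ * u₁) (t₁ * v₁) (t₂ * u₂) (t₂ * v₂) = t₁ ^ 2 * t₂ ^ 2 * G0 u₁ v₁ u₂ v₂ := by
  simp only [G0]; ring

theorem G1_scale {R : Type*} [CommRing R] (E : WeierstrassCurve R) (t₁ t₂ u₁ v₁ u₂ v₂ : R) :
    G1 E (t₁ * u₁) (t₁ * v₁) (t₂ * u₂) (t₂ * v₂) = t₁ ^ 2 * t₂ ^ 2 * G1 E u₁ v₁ u₂ v₂ := by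
  simp only [G1]; ring

theorem G2_scale {R : Type*} [CommRing R] (E : WeierstrassCurve R) (t₁ t₂ u₁ v₁ u₂ v₂ : R) :
    G2 E (t₁ * u₁) (t₁ * v₁) (t₂ * u₂) (t₂ * v₂) = t₁ ^ 2 * t₂ ^ 2 * G2 E u₁ v₁ u₂ v₂ := by
  simp only [G2]; ring

theorem map_Wt_eq : (Wt W).map (cK W) = W⁄W.FunctionField := by
  unfold Wt
  rw [WeierstrassCurve.map_map]
  rfl

/-- **the parallelogram law for `x`-ratios.** -/
theorem ht_parallelogram (hΔ : W.Δ ≠ 0) {R S : (W⁄W.FunctionField).Point}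
    {U₁ V₁ U₂ V₂ U₃ V₃ U₄ V₄ : k[X]} (h₁ : IsXRatio W R U₁ V₁) (h₂ : IsXRatio W S U₂ V₂)
    (h₃ : IsXRatio W (R + S) U₃ V₃) (h₄ : IsXRatio W (R - S) U₄ V₄) :
    ht U₃ V₃ + ht U₄ V₄ = 2 * ht U₁ V₁ + 2 * ht U₂ V₂ := by
  obtain ⟨t₁, ht₁, e₁0, e₁1⟩ := h₁.exists_scale
  obtain ⟨t₂, ht₂, e₂0, e₂1⟩ := h₂.exists_scale
  obtain ⟨t₃, ht₃, e₃0, e₃1⟩ := h₃.exists_scale
  obtain ⟨t₄, ht₄, e₄0, e₄1⟩ := h₄.exists_scale
  obtain ⟨c, hc, r0, r1, r2⟩ := addsub_rel R S
  simp only [e₁0, e₁1, e₂0, e₂1, e₃0, e₃1, e₄0, e₄1] at r0 r1 r2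
  rw [G0_scale] at r0
  rw [G1_scale] at r1
  rw [G2_scale] at r2
  have m0 : cK W (G0 U₁ V₁ U₂ V₂) = G0 (cK W U₁) (cK W V₁) (cK W U₂) (cK W V₂) := map_G0 _ _ _ _ _
  have m1 : cK W (G1 (Wt W) U₁ V₁ U₂ V₂) =
      G1 (W⁄W.FunctionField) (cK W U₁) (cK W V₁) (cK W U₂) (cK W V₂) := by
    rw [map_G1, map_Wt_eq]
  have m2 : cK W (G2 (Wt W) U₁ V₁ U₂ V₂) =
      G2 (W⁄W.FunctionField) (cK W U₁) (cK W V₁) (cK W U₂) (cK W V₂) := by
    rw [map_G2, map_Wt_eq]
  rw [← m0] at r0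
  rw [← m1] at r1
  rw [← m2] at r2
  -- the proportionality factor
  set a : W.FunctionField := t₁ ^ 2 * t₂ ^ 2 with ha
  have ha0 : a ≠ 0 := mul_ne_zero (pow_ne_zero _ ht₁) (pow_ne_zero _ ht₂)
  set μ : W.FunctionField := c * t₃ * t₄ / a with hμ
  have hμ0 : μ ≠ 0 := div_ne_zero (mul_ne_zero (mul_ne_zero hc ht₃) ht₄) ha0
  have q0 : cK W (G0 U₁ V₁ U₂ V₂) = μ * cK W (V₃ * V₄) := by
    rw [hμ, map_mul]; field_simp; linear_combination r0
  have q1 : cK W (G1 (Wt W) U₁ V₁ U₂ V₂) = μ * cK W (U₃ * V₄ + U₄ * V₃) := by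
    rw [hμ, map_add, map_mul, map_mul]; field_simp; linear_combination r1
  have q2 : cK W (G2 (Wt W) U₁ V₁ U₂ V₂) = μ * cK W (U₃ * U₄) := by
    rw [hμ, map_mul]; field_simp; linear_combination r2
  obtain ⟨b0, b1, b2, hb⟩ := (prim3_sym h₃.1 h₄.1).exists_bezout
  set g : k[X] := b0 * G0 U₁ V₁ U₂ V₂ + b1 * G1 (Wt W) U₁ V₁ U₂ V₂ + b2 * G2 (Wt W) U₁ V₁ U₂ V₂
    with hg
  have hgμ : cK W g = μ := by
    rw [hg, map_add, map_add, map_mul, map_mul, map_mul, q0, q1, q2]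
    have hb' : cK W b0 * cK W (V₃ * V₄) + cK W b1 * cK W (U₃ * V₄ + U₄ * V₃)
        + cK W b2 * cK W (U₃ * U₄) = 1 := by
      rw [← map_mul, ← map_mul, ← map_mul, ← map_add, ← map_add, hb, map_one]
    linear_combination μ * hb'
  have hg0 : g ≠ 0 := by
    intro h0
    rw [h0, map_zero] at hgμ
    exact hμ0 hgμ.symm
  refine parallelogram W hΔ h₁.1 h₂.1 h₃.1 h₄.1 (e := g) (e' := 1) hg0 ?_ ?_ ?_
  · apply cK_injective W
    rw [map_mul, hgμ, one_mul, q0]
  · apply cK_injective W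
    rw [map_mul, hgμ, one_mul, q1]
  · apply cK_injective W
    rw [map_mul, hgμ, one_mul, q2]

/-- **the exact parallelogram law for the degree on the odd points.** -/
theorem deg_add_add_deg_sub (hΔ : W.Δ ≠ 0) {R S : (W⁄W.FunctionField).Point}
    (hR : R ∈ oddPoints W) (hS : S ∈ oddPoints W) :
    deg W (R + S) + deg W (R - S) = 2 * deg W R + 2 * deg W S := by
  obtain ⟨U₁, V₁, h₁⟩ := exists_isXRatio hΔ hR
  obtain ⟨U₂, V₂, h₂⟩ := exists_isXRatio hΔ hS
  obtain ⟨U₃, V₃, h₃⟩ := exists_isXRatio hΔ (add_mem hR hS)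
  obtain ⟨U₄, V₄, h₄⟩ := exists_isXRatio hΔ (sub_mem hR hS)
  rw [deg_eq_of_isXRatio h₁, deg_eq_of_isXRatio h₂, deg_eq_of_isXRatio h₃, deg_eq_of_isXRatio h₄]
  exact ht_parallelogram hΔ h₁ h₂ h₃ h₄

/-! ### power maps (Frobenius) -/

theorem ht_pow (U V : k[X]) (q : ℕ) : ht (U ^ q) (V ^ q) = q * ht U V := by
  unfold ht
  rw [natDegree_pow, natDegree_pow, Nat.mul_max_mul_left]

/-- an endomorphism of the form `z ↦ z ^ q` raises `x`-ratios to the `q`-th power. -/
theorem IsXRatio.map_pow {q : ℕ} (hq : q ≠ 0) (Φ : W.FunctionField →ₐ[k] W.FunctionField)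
    (hΦ : ∀ z, Φ z = z ^ q) {R : (W⁄W.FunctionField).Point} {U V : k[X]}
    (h : IsXRatio W R U V) : IsXRatio W (Point.map (W' := W) Φ R) (U ^ q) (V ^ q) := by
  rcases R with _ | ⟨x, y, hxy⟩
  · have e := h.2
    rw [← Point.zero_def] at e ⊢
    simp only [Point.xRep_zero, Matrix.cons_val_zero, Matrix.cons_val_one, one_mul, zero_mul] at e
    have hV : V = 0 := cK_injective W (by rw [e, map_zero])
    refine ⟨h.1.pow, ?_⟩
    rw [Point.map_zero, hV, zero_pow hq]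
    simp
  · obtain ⟨hc, e⟩ := (isXRatio_some_iff hxy).mp h
    rw [Point.map_some, isXRatio_some_iff]
    refine ⟨hc.pow, ?_⟩
    rw [hΦ, _root_.map_pow, ← mul_pow, e, _root_.map_pow]

theorem deg_map_pow (hΔ : W.Δ ≠ 0) {q : ℕ} (hq : q ≠ 0)
    (Φ : W.FunctionField →ₐ[k] W.FunctionField) (hΦ : ∀ z, Φ z = z ^ q)
    {R : (W⁄W.FunctionField).Point} (hR : R ∈ oddPoints W) :
    deg W (Point.map (W' := W) Φ R) = q * deg W R := by
  obtain ⟨U, V, h⟩ := exists_isXRatio hΔ hR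
  rw [deg_eq_of_isXRatio h, deg_eq_of_isXRatio (h.map_pow hq Φ hΦ), ht_pow]

/-- endomorphisms of the form `z ↦ z ^ q` preserve the odd points. -/
theorem map_pow_mem_oddPoints {q : ℕ} (Φ : W.FunctionField →ₐ[k] W.FunctionField)
    (hΦ : ∀ z, Φ z = z ^ q) {R : (W⁄W.FunctionField).Point} (hR : R ∈ oddPoints W) :
    Point.map (W' := W) Φ R ∈ oddPoints W :=
  map_mem_oddPoints W Φ (fun z => by rw [hΦ, hΦ, _root_.map_pow]) hR

end Fermat.Agent.Q58R.Deg
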