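/-
Programme Q (S58), interface of the "Frobenius relation" half (helper90).

* `frob r L` : the Frobenius `z ↦ z ^ r` of a `ZMod r`-algebra `L`, as a `ZMod r`-algebra map;
* `frobPt r W₀ L` : the induced endomorphism of the group of points `W₀(L)`;
* `FrobRel r W₀` : THE STATEMENT of the characteristic-`r` theorem: on the odd torsion of `W₀(L)`,
  `L` any field of characteristic `r`, `Frob² - a Frob + r = 0` with
  `a = W₀.traceOfFrobenius = r + 1 - #W₀(𝔽_r)`.
-/
import Mathlib
import Fermat.Prelude.Def_FLTPrelim_Modularity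

set_option autoImplicit false

namespace Fermat.Agent.Q58R.Iface

open WeierstrassCurve WeierstrassCurve.Affine

/-- the Frobenius `z ↦ z ^ r` of a `ZMod r`-algebra. -/
noncomputable abbrev frob (r : ℕ) [Fact r.Prime] (L : Type*) [CommRing L] [Algebra (ZMod r) L] :
    L →ₐ[ZMod r] L :=
  FiniteField.frobeniusAlgHom (ZMod r) L

theorem frob_apply (r : ℕ) [Fact r.Prime] {L : Type*} [CommRing L] [Algebra (ZMod r) L] (z : L) :
    frob r L z = z ^ r := by
  rw [frob, FiniteField.coe_frobeniusAlgHom, ZMod.card]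

/-- every `ZMod r`-algebra map commutes with Frobenius. -/
theorem frob_comm (r : ℕ) [Fact r.Prime] {L L' : Type*} [CommRing L] [Algebra (ZMod r) L]
    [CommRing L'] [Algebra (ZMod r) L'] (f : L →ₐ[ZMod r] L') :
    f.comp (frob r L) = (frob r L').comp f := by
  refine AlgHom.ext fun z => ?_
  rw [AlgHom.comp_apply, AlgHom.comp_apply, frob_apply, frob_apply, map_pow]

/-- the Frobenius endomorphism of the group of points. -/
noncomputable abbrev frobPt (r : ℕ) [Fact r.Prime] (W₀ : Affine (ZMod r)) (L : Type*) [Field L]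
    [DecidableEq L] [Algebra (ZMod r) L] : (W₀⁄L).Point →+ (W₀⁄L).Point :=
  Point.map (W' := W₀) (frob r L)

/-- Frobenius on points commutes with the maps induced by `ZMod r`-algebra maps. -/
theorem frobPt_map (r : ℕ) [Fact r.Prime] (W₀ : Affine (ZMod r)) {L L' : Type*} [Field L]
    [DecidableEq L] [Algebra (ZMod r) L] [Field L'] [DecidableEq L'] [Algebra (ZMod r) L']
    (f : L →ₐ[ZMod r] L') (P : (W₀⁄L).Point) :
    frobPt r W₀ L' (Point.map (W' := W₀) f P) = Point.map (W' := W₀) f (frobPt r W₀ L P) := by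
  rw [frobPt, frobPt, Point.map_map, Point.map_map, frob_comm]

/-- **The statement of the characteristic-`r` theorem.** -/
def FrobRel (r : ℕ) [Fact r.Prime] (W₀ : WeierstrassCurve (ZMod r)) : Prop :=
  ∀ (L : Type) [Field L] [DecidableEq L] [Algebra (ZMod r) L] (m : ℕ), Odd m →
    ∀ Q : (W₀.toAffine⁄L).Point, m • Q = 0 →
      frobPt r W₀.toAffine L (frobPt r W₀.toAffine L Q)
        - W₀.traceOfFrobenius • frobPt r W₀.toAffine L Q + (r : ℤ) • Q = 0

end Fermat.Agent.Q58R.Iface
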